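/-
Programme S12, brick 750 VELU-DEF, lemma (4) (helper57): INTEGRALITY AND CONGRUENCE of Vélu's quotient
curve, on top of helper34's `S12P/VeluDef34/Defs.lean`.

`A` a valuation subring of the field `F`, `V` a Weierstrass curve over `F` with coefficients in `A`,
`Q` a point of `V`, `p` a natural number (the kernel is `{k • Q}`; Vélu's sums run over the half system
`1 ≤ k < (p + 1) / 2`).

* `tq_mem`, `uq_mem`, `veluT_mem`, `veluW_mem`, `veluCurve_a₄_mem`, `veluCurve_a₆_mem` (and the other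
  coefficients): if `x(kQ), y(kQ) ∈ A` for the `k` of the half system, the quotient curve has
  coefficients in `A`;
* `tq_eq_gx` : `t(R) = 2 g_x(R) + a₁ ψ₂(R)` for `R ≠ 0`, `g_x = 3x² + 2a₂x + a₄ - a₁y`;
* `veluCurve_a₄_sub_lt_one`, `veluCurve_a₆_sub_lt_one` : if moreover `g_x(kQ)` and `ψ₂(kQ)` have
  valuation `< 1` (the kernel points reduce to the singular point), then `a₄' - a₄` and `a₆' - a₆`
  have valuation `< 1`: the quotient curve is congruent to `V` modulo the maximal ideal;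
* `valuation_lt_one_iff_residue` : the bridge to `IsLocalRing.residue`.
Mathlib + `ModInv` + the two `Defs` files only.
-/
import Mathlib
import Fermat.Agent.S12P.VeluDef34.Defs
import Fermat.Agent.S12P.VeluDef51.Defs

set_option autoImplicit false
set_option linter.unusedSectionVars false

open WeierstrassCurve

noncomputable section

namespace Fermat.Agent.S12P.VeluLem57

open Fermat.Agent.MAZ.ModInv Fermat.Agent.S12P.VeluDef34
open Fermat.Agent.S12P.VeluDef51 (gx)

variable {F : Type*} [Field F] [DecidableEq F] (A : ValuationSubring F)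

/-! ### elements of valuation `< 1` -/

theorem lt_one_add {a b : F} (ha : A.valuation a < 1) (hb : A.valuation b < 1) :
    A.valuation (a + b) < 1 := Valuation.map_add_lt _ ha hb

theorem lt_one_sub {a b : F} (ha : A.valuation a < 1) (hb : A.valuation b < 1) :
    A.valuation (a - b) < 1 := Valuation.map_sub_lt _ ha hb

theorem lt_one_neg {a : F} (ha : A.valuation a < 1) : A.valuation (-a) < 1 := by
  rwa [Valuation.map_neg]

theorem lt_one_mul_left {a b : F} (ha : a ∈ A) (hb : A.valuation b < 1) :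
    A.valuation (a * b) < 1 := by
  rw [map_mul]
  have h1 : A.valuation a ≤ 1 := (A.valuation_le_one_iff a).2 ha
  exact Right.mul_lt_one_of_le_of_lt h1 hb

theorem lt_one_mul_right {a b : F} (ha : A.valuation a < 1) (hb : b ∈ A) :
    A.valuation (a * b) < 1 := by
  rw [mul_comm]
  exact lt_one_mul_left A hb ha

theorem lt_one_sum {ι : Type*} (s : Finset ι) (f : ι → F) (h : ∀ i ∈ s, A.valuation (f i) < 1) :
    A.valuation (∑ i ∈ s, f i) < 1 := by
  classical
  induction s using Finset.induction_on with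
  | empty =>
    rw [Finset.sum_empty, map_zero]
    exact zero_lt_one
  | insert a s ha ih =>
    rw [Finset.sum_insert ha]
    exact lt_one_add A (h a (Finset.mem_insert_self a s))
      (ih fun i hi => h i (Finset.mem_insert_of_mem hi))

theorem mem_of_lt_one {a : F} (ha : A.valuation a < 1) : a ∈ A :=
  (A.valuation_le_one_iff a).1 ha.le

/-- the bridge to the residue field. -/
theorem valuation_lt_one_iff_residue (a : F) :
    A.valuation a < 1 ↔ ∃ h : a ∈ A, IsLocalRing.residue ↥A ⟨a, h⟩ = 0 := by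
  constructor
  · intro ha
    refine ⟨mem_of_lt_one A ha, ?_⟩
    rw [IsLocalRing.residue_eq_zero_iff]
    exact (A.valuation_lt_one_iff ⟨a, mem_of_lt_one A ha⟩).2 ha
  · rintro ⟨h, h0⟩
    rw [IsLocalRing.residue_eq_zero_iff] at h0
    exact (A.valuation_lt_one_iff ⟨a, h⟩).1 h0

/-! ### integrality -/

variable (V : WeierstrassCurve F)

/-- the coefficients of `V` lie in `A`. -/
structure IntegralCoeffs : Prop where
  a₁ : V.a₁ ∈ A
  a₂ : V.a₂ ∈ A
  a₃ : V.a₃ ∈ A
  a₄ : V.a₄ ∈ A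
  a₆ : V.a₆ ∈ A

variable {A V}

theorem IntegralCoeffs.b₂ (h : IntegralCoeffs A V) : V.b₂ ∈ A := by
  rw [WeierstrassCurve.b₂]
  exact add_mem (pow_mem h.a₁ 2) (mul_mem (by exact_mod_cast natCast_mem A 4) h.a₂)

theorem IntegralCoeffs.b₄ (h : IntegralCoeffs A V) : V.b₄ ∈ A := by
  rw [WeierstrassCurve.b₄]
  exact add_mem (mul_mem (by exact_mod_cast natCast_mem A 2) h.a₄) (mul_mem h.a₁ h.a₃)

theorem tq_mem (h : IntegralCoeffs A V) {R : V.toAffine.Point} (hx : xco V R ∈ A) :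
    tq V R ∈ A := by
  rw [tq]
  exact add_mem (add_mem (mul_mem (by exact_mod_cast natCast_mem A 6) (pow_mem hx 2))
    (mul_mem h.b₂ hx)) h.b₄

theorem psi2_mem (h : IntegralCoeffs A V) {R : V.toAffine.Point} (hx : xco V R ∈ A)
    (hy : yco V R ∈ A) : psi2 V R ∈ A := by
  cases R with
  | zero => exact A.zero_mem
  | some x y hxy =>
    rw [psi2_some]
    exact add_mem (add_mem (mul_mem (by exact_mod_cast natCast_mem A 2) hy) (mul_mem h.a₁ hx)) h.a₃

theorem uq_mem (h : IntegralCoeffs A V) {R : V.toAffine.Point} (hx : xco V R ∈ A)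
    (hy : yco V R ∈ A) : uq V R ∈ A := by
  rw [uq]
  exact pow_mem (psi2_mem h hx hy) 2

variable (Q : V.toAffine.Point) (p : ℕ)

theorem veluT_mem (h : IntegralCoeffs A V)
    (hx : ∀ k ∈ Finset.Ico 1 ((p + 1) / 2), xco V (k • Q) ∈ A) : veluT V Q p ∈ A := by
  rw [veluT]
  exact sum_mem fun k hk => tq_mem h (hx k hk)

theorem veluW_mem (h : IntegralCoeffs A V)
    (hx : ∀ k ∈ Finset.Ico 1 ((p + 1) / 2), xco V (k • Q) ∈ A)
    (hy : ∀ k ∈ Finset.Ico 1 ((p + 1) / 2), yco V (k • Q) ∈ A) : veluW V Q p ∈ A := by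
  rw [veluW]
  exact sum_mem fun k hk =>
    add_mem (uq_mem h (hx k hk) (hy k hk)) (mul_mem (hx k hk) (tq_mem h (hx k hk)))

/-- **(4), integrality**: the quotient curve has coefficients in `A`. -/
theorem integralCoeffs_veluCurve (h : IntegralCoeffs A V)
    (hx : ∀ k ∈ Finset.Ico 1 ((p + 1) / 2), xco V (k • Q) ∈ A)
    (hy : ∀ k ∈ Finset.Ico 1 ((p + 1) / 2), yco V (k • Q) ∈ A) :
    IntegralCoeffs A (veluCurve V Q p) where
  a₁ := h.a₁
  a₂ := h.a₂
  a₃ := h.a₃
  a₄ := by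
    rw [veluCurve_a₄]
    exact sub_mem h.a₄ (mul_mem (by exact_mod_cast natCast_mem A 5) (veluT_mem Q p h hx))
  a₆ := by
    rw [veluCurve_a₆]
    exact sub_mem (sub_mem h.a₆ (mul_mem h.b₂ (veluT_mem Q p h hx)))
      (mul_mem (by exact_mod_cast natCast_mem A 7) (veluW_mem Q p h hx hy))

/-! ### congruence -/

/-- `t(R) = 2 g_x(R) + a₁ ψ₂(R)` for `R ≠ 0`. -/
theorem tq_eq_gx {R : V.toAffine.Point} (hR : R ≠ 0) :
    tq V R = 2 * gx V R + V.a₁ * psi2 V R := by
  cases R with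
  | zero => exact absurd rfl hR
  | some x y hxy =>
    simp only [tq, gx, xco_some, yco_some, psi2_some, WeierstrassCurve.b₂, WeierstrassCurve.b₄]
    ring

theorem tq_lt_one (h : IntegralCoeffs A V) {R : V.toAffine.Point} (hR : R ≠ 0)
    (hg : A.valuation (gx V R) < 1) (hψ : A.valuation (psi2 V R) < 1) :
    A.valuation (tq V R) < 1 := by
  rw [tq_eq_gx hR]
  exact lt_one_add A (lt_one_mul_left A (by exact_mod_cast natCast_mem A 2) hg)
    (lt_one_mul_left A h.a₁ hψ)

theorem uq_lt_one {R : V.toAffine.Point} (hψ : A.valuation (psi2 V R) < 1) :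
    A.valuation (uq V R) < 1 := by
  rw [uq, pow_two]
  exact lt_one_mul_left A (mem_of_lt_one A hψ) hψ

theorem veluT_lt_one (h : IntegralCoeffs A V)
    (hne : ∀ k ∈ Finset.Ico 1 ((p + 1) / 2), k • Q ≠ 0)
    (hg : ∀ k ∈ Finset.Ico 1 ((p + 1) / 2), A.valuation (gx V (k • Q)) < 1)
    (hψ : ∀ k ∈ Finset.Ico 1 ((p + 1) / 2), A.valuation (psi2 V (k • Q)) < 1) :
    A.valuation (veluT V Q p) < 1 := by
  rw [veluT]
  exact lt_one_sum A _ _ fun k hk => tq_lt_one h (hne k hk) (hg k hk) (hψ k hk)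

theorem veluW_lt_one (h : IntegralCoeffs A V)
    (hne : ∀ k ∈ Finset.Ico 1 ((p + 1) / 2), k • Q ≠ 0)
    (hx : ∀ k ∈ Finset.Ico 1 ((p + 1) / 2), xco V (k • Q) ∈ A)
    (hg : ∀ k ∈ Finset.Ico 1 ((p + 1) / 2), A.valuation (gx V (k • Q)) < 1)
    (hψ : ∀ k ∈ Finset.Ico 1 ((p + 1) / 2), A.valuation (psi2 V (k • Q)) < 1) :
    A.valuation (veluW V Q p) < 1 := by
  rw [veluW]
  exact lt_one_sum A _ _ fun k hk => lt_one_add A (uq_lt_one (hψ k hk))
    (lt_one_mul_left A (hx k hk) (tq_lt_one h (hne k hk) (hg k hk) (hψ k hk)))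

/-- **(4), congruence**: `a₄' ≡ a₄` modulo the maximal ideal when the kernel points reduce to the
singular point. -/
theorem veluCurve_a₄_sub_lt_one (h : IntegralCoeffs A V)
    (hne : ∀ k ∈ Finset.Ico 1 ((p + 1) / 2), k • Q ≠ 0)
    (hg : ∀ k ∈ Finset.Ico 1 ((p + 1) / 2), A.valuation (gx V (k • Q)) < 1)
    (hψ : ∀ k ∈ Finset.Ico 1 ((p + 1) / 2), A.valuation (psi2 V (k • Q)) < 1) :
    A.valuation ((veluCurve V Q p).a₄ - V.a₄) < 1 := by
  have e : (veluCurve V Q p).a₄ - V.a₄ = -(5 * veluT V Q p) := by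
    rw [veluCurve_a₄]
    ring
  rw [e]
  exact lt_one_neg A (lt_one_mul_left A (by exact_mod_cast natCast_mem A 5)
    (veluT_lt_one Q p h hne hg hψ))

/-- **(4), congruence**: `a₆' ≡ a₆` modulo the maximal ideal. -/
theorem veluCurve_a₆_sub_lt_one (h : IntegralCoeffs A V)
    (hne : ∀ k ∈ Finset.Ico 1 ((p + 1) / 2), k • Q ≠ 0)
    (hx : ∀ k ∈ Finset.Ico 1 ((p + 1) / 2), xco V (k • Q) ∈ A)
    (hg : ∀ k ∈ Finset.Ico 1 ((p + 1) / 2), A.valuation (gx V (k • Q)) < 1)
    (hψ : ∀ k ∈ Finset.Ico 1 ((p + 1) / 2), A.valuation (psi2 V (k • Q)) < 1) :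
    A.valuation ((veluCurve V Q p).a₆ - V.a₆) < 1 := by
  have e : (veluCurve V Q p).a₆ - V.a₆ = -(V.b₂ * veluT V Q p + 7 * veluW V Q p) := by
    rw [veluCurve_a₆]
    ring
  rw [e]
  exact lt_one_neg A (lt_one_add A (lt_one_mul_left A h.b₂ (veluT_lt_one Q p h hne hg hψ))
    (lt_one_mul_left A (by exact_mod_cast natCast_mem A 7) (veluW_lt_one Q p h hne hx hg hψ)))

end Fermat.Agent.S12P.VeluLem57
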