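/-
Programme S12, brick 750 VELU-DEF, deliverable (D3) (helper57): INTEGRALITY AND CONGRUENCE of Vélu's
quotient curve in the CANONICAL vocabulary `S12P/VeluDef51/Defs.lean` (full-kernel sums of `g_x`,
`x g_x + y ψ₂`).  No torsion or parity hypothesis is needed here.

`A` a valuation subring of the field `F`, `V` a Weierstrass curve over `F` with coefficients in `A`
(`IntegralCoeffs A V` of `Integral.lean`), `Q` a point, `p : ℕ` (kernel `{k • Q : 0 < k < p}`).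

* `gx_mem`, `veluT51_mem`, `veluW51_mem`, `integralCoeffs_veluCurve51` : if `x(kQ), y(kQ) ∈ A`
  (`0 < k < p`) then `t, w ∈ A` and the quotient curve has coefficients in `A`;
* `veluT51_lt_one`, `veluW51_lt_one`, `veluCurve51_a₄_sub_lt_one`, `veluCurve51_a₆_sub_lt_one`,
  `veluCurve51_c₄_sub_lt_one`, `veluCurve51_Δ_sub_lt_one` : if moreover `g_x(kQ)`, `ψ₂(kQ)` have valuation
  `< 1` (the kernel points reduce to the singular point) then `a₄' ≡ a₄`, `a₆' ≡ a₆`, `c₄' ≡ c₄`,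
  `Δ' ≡ Δ` modulo the maximal ideal;
* `veluCurve51_Δ_lt_one_iff`, `veluCurve51_c₄_eq_one_iff` : hence `v(Δ') < 1 ↔ v(Δ) < 1` and
  `v(c₄') = 1 ↔ v(c₄) = 1` (multiplicative reduction is inherited by the quotient).
* `Δ_sub_eq` : the ring identity for `Δ(a₁,a₂,a₃,a₄+δ₄,a₆+δ₆) - Δ(a₁,…,a₆)`.
Mathlib + `ModInv` + `VeluDef51/Defs` + `VeluLem57/Integral` only.
-/
import Mathlib
import Fermat.Agent.S12P.VeluLem57.Integral

set_option autoImplicit false
set_option linter.unusedSectionVars false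

open WeierstrassCurve

noncomputable section

namespace Fermat.Agent.S12P.VeluLem57

open Fermat.Agent.MAZ.ModInv
open Fermat.Agent.S12P.VeluDef51

/-! ### a ring identity for the discriminant -/

/-- `Δ(a₁, a₂, a₃, a₄ + δ₄, a₆ + δ₆) - Δ(a₁, …, a₆) = δ₄ · P + δ₆ · Q`. -/
theorem Δ_sub_eq {R : Type*} [CommRing R] (W : WeierstrassCurve R) (δ₄ δ₆ : R) :
    (⟨W.a₁, W.a₂, W.a₃, W.a₄ + δ₄, W.a₆ + δ₆⟩ : WeierstrassCurve R).Δ - W.Δ =
      δ₄ * (W.b₂ ^ 2 * W.b₄ + W.b₂ ^ 2 * δ₄ - 48 * W.b₄ ^ 2 - 96 * W.b₄ * δ₄ - 64 * δ₄ ^ 2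
        + 18 * W.b₂ * W.b₆ + 72 * W.b₂ * δ₆)
      + δ₆ * (-W.b₂ ^ 3 - 216 * W.b₆ - 432 * δ₆ + 36 * W.b₂ * W.b₄) := by
  simp only [WeierstrassCurve.Δ, WeierstrassCurve.b₂, WeierstrassCurve.b₄, WeierstrassCurve.b₆,
    WeierstrassCurve.b₈]
  ring

variable {F : Type*} [Field F] [DecidableEq F] {A : ValuationSubring F} {V : WeierstrassCurve F}

/-! ### two generic facts on congruent integers -/

theorem val_lt_one_iff_of_sub_lt_one {a b : F} (h : A.valuation (a - b) < 1) :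
    A.valuation a < 1 ↔ A.valuation b < 1 := by
  constructor
  · intro ha
    have : b = a - (a - b) := by ring
    rw [this]
    exact lt_one_sub A ha h
  · intro hb
    have : a = (a - b) + b := by ring
    rw [this]
    exact lt_one_add A h hb

theorem val_eq_one_iff_of_sub_lt_one {a b : F} (h : A.valuation (a - b) < 1) :
    A.valuation a = 1 ↔ A.valuation b = 1 := by
  have key : ∀ {c d : F}, A.valuation (c - d) < 1 → A.valuation c = 1 → A.valuation d = 1 := by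
    intro c d hcd hc
    have e : d = c + -(c - d) := by ring
    rw [e]
    have h1 : A.valuation (-(c - d)) < A.valuation c := by
      rw [Valuation.map_neg, hc]
      exact hcd
    rw [Valuation.map_add_eq_of_lt_left _ h1, hc]
  constructor
  · exact key h
  · have h' : A.valuation (b - a) < 1 := by
      rw [← Valuation.map_neg, neg_sub]
      exact h
    exact key h'

/-! ### integrality -/

theorem IntegralCoeffs.b₆ (h : IntegralCoeffs A V) : V.b₆ ∈ A := by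
  rw [WeierstrassCurve.b₆]
  exact add_mem (pow_mem h.a₃ 2) (mul_mem (by exact_mod_cast natCast_mem A 4) h.a₆)

theorem gx_mem (h : IntegralCoeffs A V) {R : V.toAffine.Point} (hx : xco V R ∈ A)
    (hy : yco V R ∈ A) : gx V R ∈ A := by
  rw [gx]
  exact sub_mem (add_mem (add_mem (mul_mem (by exact_mod_cast natCast_mem A 3) (pow_mem hx 2))
    (mul_mem (mul_mem (by exact_mod_cast natCast_mem A 2) h.a₂) hx)) h.a₄) (mul_mem h.a₁ hy)

variable (Q : V.toAffine.Point) (p : ℕ)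

theorem veluT51_mem (h : IntegralCoeffs A V)
    (hx : ∀ k ∈ Finset.Ico 1 p, xco V (k • Q) ∈ A)
    (hy : ∀ k ∈ Finset.Ico 1 p, yco V (k • Q) ∈ A) : veluT V Q p ∈ A := by
  rw [veluT]
  exact sum_mem fun k hk => gx_mem h (hx k hk) (hy k hk)

theorem veluW51_mem (h : IntegralCoeffs A V)
    (hx : ∀ k ∈ Finset.Ico 1 p, xco V (k • Q) ∈ A)
    (hy : ∀ k ∈ Finset.Ico 1 p, yco V (k • Q) ∈ A) : veluW V Q p ∈ A := by
  rw [veluW]
  exact sum_mem fun k hk =>
    add_mem (mul_mem (hx k hk) (gx_mem h (hx k hk) (hy k hk)))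
      (mul_mem (hy k hk) (psi2_mem h (hx k hk) (hy k hk)))

/-- **(D3), integrality**: the quotient curve has coefficients in `A`. -/
theorem integralCoeffs_veluCurve51 (h : IntegralCoeffs A V)
    (hx : ∀ k ∈ Finset.Ico 1 p, xco V (k • Q) ∈ A)
    (hy : ∀ k ∈ Finset.Ico 1 p, yco V (k • Q) ∈ A) :
    IntegralCoeffs A (veluCurve V Q p) where
  a₁ := h.a₁
  a₂ := h.a₂
  a₃ := h.a₃
  a₄ := by
    rw [veluCurve_a₄]
    exact sub_mem h.a₄ (mul_mem (by exact_mod_cast natCast_mem A 5) (veluT51_mem Q p h hx hy))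
  a₆ := by
    rw [veluCurve_a₆]
    exact sub_mem (sub_mem h.a₆ (mul_mem h.b₂ (veluT51_mem Q p h hx hy)))
      (mul_mem (by exact_mod_cast natCast_mem A 7) (veluW51_mem Q p h hx hy))

/-! ### congruence -/

theorem veluT51_lt_one
    (hg : ∀ k ∈ Finset.Ico 1 p, A.valuation (gx V (k • Q)) < 1) :
    A.valuation (veluT V Q p) < 1 := by
  rw [veluT]
  exact lt_one_sum A _ _ hg

theorem veluW51_lt_one
    (hx : ∀ k ∈ Finset.Ico 1 p, xco V (k • Q) ∈ A)
    (hy : ∀ k ∈ Finset.Ico 1 p, yco V (k • Q) ∈ A)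
    (hg : ∀ k ∈ Finset.Ico 1 p, A.valuation (gx V (k • Q)) < 1)
    (hψ : ∀ k ∈ Finset.Ico 1 p, A.valuation (psi2 V (k • Q)) < 1) :
    A.valuation (veluW V Q p) < 1 := by
  rw [veluW]
  exact lt_one_sum A _ _ fun k hk => lt_one_add A (lt_one_mul_left A (hx k hk) (hg k hk))
    (lt_one_mul_left A (hy k hk) (hψ k hk))

theorem veluCurve51_a₄_sub_eq : (veluCurve V Q p).a₄ - V.a₄ = -(5 * veluT V Q p) := by
  rw [veluCurve_a₄]
  ring

theorem veluCurve51_a₆_sub_eq :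
    (veluCurve V Q p).a₆ - V.a₆ = -(V.b₂ * veluT V Q p + 7 * veluW V Q p) := by
  rw [veluCurve_a₆]
  ring

/-- **(D3), congruence**: `a₄' ≡ a₄` modulo the maximal ideal when the kernel points reduce to the
singular point. -/
theorem veluCurve51_a₄_sub_lt_one
    (hg : ∀ k ∈ Finset.Ico 1 p, A.valuation (gx V (k • Q)) < 1) :
    A.valuation ((veluCurve V Q p).a₄ - V.a₄) < 1 := by
  rw [veluCurve51_a₄_sub_eq]
  exact lt_one_neg A (lt_one_mul_left A (by exact_mod_cast natCast_mem A 5)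
    (veluT51_lt_one Q p hg))

/-- **(D3), congruence**: `a₆' ≡ a₆` modulo the maximal ideal. -/
theorem veluCurve51_a₆_sub_lt_one (h : IntegralCoeffs A V)
    (hx : ∀ k ∈ Finset.Ico 1 p, xco V (k • Q) ∈ A)
    (hy : ∀ k ∈ Finset.Ico 1 p, yco V (k • Q) ∈ A)
    (hg : ∀ k ∈ Finset.Ico 1 p, A.valuation (gx V (k • Q)) < 1)
    (hψ : ∀ k ∈ Finset.Ico 1 p, A.valuation (psi2 V (k • Q)) < 1) :
    A.valuation ((veluCurve V Q p).a₆ - V.a₆) < 1 := by
  rw [veluCurve51_a₆_sub_eq]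
  exact lt_one_neg A (lt_one_add A (lt_one_mul_left A h.b₂ (veluT51_lt_one Q p hg))
    (lt_one_mul_left A (by exact_mod_cast natCast_mem A 7) (veluW51_lt_one Q p hx hy hg hψ)))

/-- **(D3), congruence**: `c₄' ≡ c₄` modulo the maximal ideal. -/
theorem veluCurve51_c₄_sub_lt_one
    (hg : ∀ k ∈ Finset.Ico 1 p, A.valuation (gx V (k • Q)) < 1) :
    A.valuation ((veluCurve V Q p).c₄ - V.c₄) < 1 := by
  have e : (veluCurve V Q p).c₄ - V.c₄ = 240 * veluT V Q p := by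
    rw [veluCurve_c₄]
    ring
  rw [e]
  exact lt_one_mul_left A (by exact_mod_cast natCast_mem A 240) (veluT51_lt_one Q p hg)

/-- **(D3), congruence**: `Δ' ≡ Δ` modulo the maximal ideal. -/
theorem veluCurve51_Δ_sub_lt_one (h : IntegralCoeffs A V)
    (hx : ∀ k ∈ Finset.Ico 1 p, xco V (k • Q) ∈ A)
    (hy : ∀ k ∈ Finset.Ico 1 p, yco V (k • Q) ∈ A)
    (hg : ∀ k ∈ Finset.Ico 1 p, A.valuation (gx V (k • Q)) < 1)
    (hψ : ∀ k ∈ Finset.Ico 1 p, A.valuation (psi2 V (k • Q)) < 1) :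
    A.valuation ((veluCurve V Q p).Δ - V.Δ) < 1 := by
  set δ₄ : F := (veluCurve V Q p).a₄ - V.a₄ with hδ₄
  set δ₆ : F := (veluCurve V Q p).a₆ - V.a₆ with hδ₆
  have h4 : A.valuation δ₄ < 1 := veluCurve51_a₄_sub_lt_one Q p hg
  have h6 : A.valuation δ₆ < 1 := veluCurve51_a₆_sub_lt_one Q p h hx hy hg hψ
  have m4 : δ₄ ∈ A := mem_of_lt_one A h4
  have m6 : δ₆ ∈ A := mem_of_lt_one A h6
  have hcurve : veluCurve V Q p = ⟨V.a₁, V.a₂, V.a₃, V.a₄ + δ₄, V.a₆ + δ₆⟩ := by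
    rw [hδ₄, hδ₆]
    ext <;> simp
  rw [hcurve, Δ_sub_eq]
  have n : ∀ k : ℕ, (k : F) ∈ A := fun k => natCast_mem A k
  have hb2 := h.b₂
  have hb4 := h.b₄
  have hb6 := h.b₆
  refine lt_one_add A (lt_one_mul_right A h4 ?_) (lt_one_mul_right A h6 ?_)
  · refine add_mem (add_mem (sub_mem (sub_mem (sub_mem (add_mem
      (mul_mem (pow_mem hb2 2) hb4) (mul_mem (pow_mem hb2 2) m4)) ?_) ?_) ?_) ?_) ?_
    · exact mul_mem (by exact_mod_cast n 48) (pow_mem hb4 2)
    · exact mul_mem (mul_mem (by exact_mod_cast n 96) hb4) m4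
    · exact mul_mem (by exact_mod_cast n 64) (pow_mem m4 2)
    · exact mul_mem (mul_mem (by exact_mod_cast n 18) hb2) hb6
    · exact mul_mem (mul_mem (by exact_mod_cast n 72) hb2) m6
  · refine add_mem (sub_mem (sub_mem (neg_mem (pow_mem hb2 3)) ?_) ?_) ?_
    · exact mul_mem (by exact_mod_cast n 216) hb6
    · exact mul_mem (by exact_mod_cast n 432) m6
    · exact mul_mem (mul_mem (by exact_mod_cast n 36) hb2) hb4

/-- the quotient has bad reduction iff `V` has (kernel reducing to the singular point). -/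
theorem veluCurve51_Δ_lt_one_iff (h : IntegralCoeffs A V)
    (hx : ∀ k ∈ Finset.Ico 1 p, xco V (k • Q) ∈ A)
    (hy : ∀ k ∈ Finset.Ico 1 p, yco V (k • Q) ∈ A)
    (hg : ∀ k ∈ Finset.Ico 1 p, A.valuation (gx V (k • Q)) < 1)
    (hψ : ∀ k ∈ Finset.Ico 1 p, A.valuation (psi2 V (k • Q)) < 1) :
    A.valuation (veluCurve V Q p).Δ < 1 ↔ A.valuation V.Δ < 1 :=
  val_lt_one_iff_of_sub_lt_one (veluCurve51_Δ_sub_lt_one Q p h hx hy hg hψ)

/-- `c₄` of the quotient is a unit iff `c₄` of `V` is. -/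
theorem veluCurve51_c₄_eq_one_iff
    (hg : ∀ k ∈ Finset.Ico 1 p, A.valuation (gx V (k • Q)) < 1) :
    A.valuation (veluCurve V Q p).c₄ = 1 ↔ A.valuation V.c₄ = 1 :=
  val_eq_one_iff_of_sub_lt_one (veluCurve51_c₄_sub_lt_one Q p hg)

end Fermat.Agent.S12P.VeluLem57
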