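/-
Programme S12, brick 750 VELU-DEF, lemma (2) (helper57): EQUIVARIANCE of Vélu's data, on top of
helper34's `S12P/VeluDef34/Defs.lean` (half-system sums) and helper51's `S12P/VeluDef51/Defs.lean`
(full sums of `g_x`, `x g_x + y ψ₂`).

* **Part A** (maps): `W'` a Weierstrass curve over `R`, `f : F →ₐ[S] K` (`R → S → F, K`): the
  coordinates `xco, yco, psi2, gx, tq, uq` and `veluT, veluW, veluX, veluY` (both vocabularies) commute
  with `Point.map f`; in particular with the Prelude's Galois action `σ • P` (`smul_*` lemmas).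
* **Part B** (bridge): for `p` odd and `p • Q = 0`, `k • Q ≠ 0` (`0 < k < p`):
  `VeluDef34.veluT = VeluDef51.veluT`, `VeluDef34.veluW = VeluDef51.veluW` (`k ↔ p - k`), hence the two
  `veluCurve`s agree.
* **Part C** (change of generator): for `p • Q = 0` and `j` prime to `p` (`1 < p`): the full sums
  `∑_{0<k<p} g (k • (j • Q)) = ∑_{0<k<p} g (k • Q)`; hence `veluT, veluW, veluCurve, veluX, veluY` do not
  change when `Q` is replaced by `j • Q` (for `VeluDef51` always, for `VeluDef34` via Part B).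
* **Corollary** (`veluT_smul_eq` …): if `σ • Q = j • Q` then `σ (veluT Q) = veluT Q`, etc.: the
  coefficients of the quotient curve by a Galois-stable cyclic subgroup are Galois-invariant.
Mathlib + the two `Defs` files + the Prelude's Galois action only.
-/
import Mathlib
import Fermat.Agent.S12P.VeluDef34.Defs
import Fermat.Agent.S12P.VeluDef51.Defs
import Fermat.Prelude.Def_FLTPrelim_GaloisRep

set_option autoImplicit false
set_option linter.unusedSectionVars false

open WeierstrassCurve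

noncomputable section

namespace Fermat.Agent.S12P.VeluLem57

open Fermat.Agent.MAZ.ModInv
open Fermat.Agent.S12P.VeluDef51 (gx)

/-! ### Part C first: sums over the multiples of a point of order dividing `p` -/

section Reindex

variable {G : Type*} [AddCommGroup G]

theorem nsmul_eq_of_modEq {p : ℕ} {Q : G} (hQ : p • Q = 0) {a b : ℕ} (h : a ≡ b [MOD p]) :
    a • Q = b • Q := by
  have h1 : ∀ n : ℕ, n • Q = (n % p) • Q := by
    intro n
    conv_lhs => rw [← Nat.mod_add_div n p]
    rw [add_smul, mul_comm, mul_smul, hQ, smul_zero, add_zero]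
  rw [h1 a, h1 b, h]

/-- **change of generator in a full sum**. -/
theorem sum_Ico_smul_smul {M : Type*} [AddCommMonoid M] {p : ℕ} (hp : 1 < p) {Q : G}
    (hQ : p • Q = 0) {j : ℕ} (hj : Nat.Coprime j p) (g : G → M) :
    ∑ k ∈ Finset.Ico 1 p, g (k • (j • Q)) = ∑ k ∈ Finset.Ico 1 p, g (k • Q) := by
  have hp0 : 0 < p := by omega
  obtain ⟨m, -, hm⟩ := Nat.exists_mul_mod_eq_one_of_coprime hj hp
  have hjm : j * m ≡ 1 [MOD p] := by
    rw [Nat.ModEq, hm, Nat.mod_eq_of_lt hp]
  -- the bijection `k ↦ k j mod p` of `{1, …, p-1}`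
  have hmem : ∀ (a : ℕ), Nat.Coprime a p → ∀ k ∈ Finset.Ico 1 p, (k * a) % p ∈ Finset.Ico 1 p := by
    intro a ha k hk
    rw [Finset.mem_Ico] at hk ⊢
    refine ⟨?_, Nat.mod_lt _ hp0⟩
    rw [Nat.one_le_iff_ne_zero]
    intro h0
    have hdvd : p ∣ k * a := Nat.dvd_of_mod_eq_zero h0
    have hpk : p ∣ k := (Nat.Coprime.dvd_mul_right ha.symm).1 hdvd
    have := Nat.le_of_dvd (by omega) hpk
    omega
  have hm' : Nat.Coprime m p := by
    have h1 : Nat.Coprime (j * m) p := by
      have := hjm.gcd_eq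
      rw [Nat.Coprime, this]
      exact Nat.gcd_one_left p
    exact Nat.Coprime.coprime_mul_left h1
  refine Finset.sum_nbij' (fun k => (k * j) % p) (fun k => (k * m) % p) (hmem j hj) (hmem m hm')
    ?_ ?_ ?_
  · intro k hk
    rw [Finset.mem_Ico] at hk
    show ((k * j) % p * m) % p = k
    have h1 : (k * j) % p * m ≡ k * (j * m) [MOD p] := by
      have := (Nat.mod_modEq (k * j) p).mul_right m
      rwa [mul_assoc] at this
    have h2 : k * (j * m) ≡ k [MOD p] := by
      have := hjm.mul_left k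
      rwa [mul_one] at this
    have h3 := h1.trans h2
    rw [Nat.ModEq, Nat.mod_eq_of_lt (b := p) hk.2] at h3
    exact h3
  · intro k hk
    rw [Finset.mem_Ico] at hk
    show ((k * m) % p * j) % p = k
    have h1 : (k * m) % p * j ≡ k * (m * j) [MOD p] := by
      have := (Nat.mod_modEq (k * m) p).mul_right j
      rwa [mul_assoc] at this
    have h2 : k * (m * j) ≡ k [MOD p] := by
      have := hjm.mul_left k
      rwa [mul_one, mul_comm j m] at this
    have h3 := h1.trans h2
    rw [Nat.ModEq, Nat.mod_eq_of_lt (b := p) hk.2] at h3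
    exact h3
  · intro k _
    rw [← mul_smul]
    exact congrArg g (nsmul_eq_of_modEq hQ (Nat.mod_modEq (k * j) p).symm)

/-- folding a full sum onto the half system (`p` odd, `k ↔ p - k`). -/
theorem sum_Ico_eq_sum_half {M : Type*} [AddCommMonoid M] {p : ℕ} (hp : Odd p) (f : ℕ → M) :
    ∑ k ∈ Finset.Ico 1 p, f k = ∑ k ∈ Finset.Ico 1 ((p + 1) / 2), (f k + f (p - k)) := by
  obtain ⟨n, rfl⟩ := hp
  have e1 : (2 * n + 1 + 1) / 2 = n + 1 := by omega
  rw [e1, Finset.sum_add_distrib]
  have hsplit : Finset.Ico 1 (2 * n + 1) = Finset.Ico 1 (n + 1) ∪ Finset.Ico (n + 1) (2 * n + 1) := by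
    rw [Finset.Ico_union_Ico_eq_Ico (by omega) (by omega)]
  have hdisj : Disjoint (Finset.Ico 1 (n + 1)) (Finset.Ico (n + 1) (2 * n + 1)) :=
    Finset.Ico_disjoint_Ico_consecutive 1 (n + 1) (2 * n + 1)
  rw [hsplit, Finset.sum_union hdisj]
  congr 1
  -- the second half, reflected
  refine Finset.sum_nbij' (fun k => 2 * n + 1 - k) (fun k => 2 * n + 1 - k) ?_ ?_ ?_ ?_ ?_
  · intro k hk
    rw [Finset.mem_Ico] at hk ⊢
    omega
  · intro k hk
    rw [Finset.mem_Ico] at hk ⊢
    omega
  · intro k hk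
    rw [Finset.mem_Ico] at hk
    show 2 * n + 1 - (2 * n + 1 - k) = k
    omega
  · intro k hk
    rw [Finset.mem_Ico] at hk
    show 2 * n + 1 - (2 * n + 1 - k) = k
    omega
  · intro k hk
    rw [Finset.mem_Ico] at hk
    show f k = f (2 * n + 1 - (2 * n + 1 - k))
    congr 1
    omega

theorem sub_nsmul_eq_neg {p : ℕ} {Q : G} (hQ : p • Q = 0) {k : ℕ} (hk : k ≤ p) :
    (p - k) • Q = -(k • Q) := by
  rw [eq_neg_iff_add_eq_zero, ← add_smul, Nat.sub_add_cancel hk, hQ]

end Reindex

/-! ### Part B: the two vocabularies agree -/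

section Bridge

variable {F : Type*} [Field F] [DecidableEq F] (V : WeierstrassCurve F)
  (Q : V.toAffine.Point) {p : ℕ}

theorem xco_neg (R : V.toAffine.Point) : xco V (-R) = xco V R := by
  cases R with
  | zero => rfl
  | some x y h => rfl

/-- `t` is even. -/
theorem tq_neg (R : V.toAffine.Point) : VeluDef34.tq V (-R) = VeluDef34.tq V R := by
  rw [VeluDef34.tq, VeluDef34.tq, xco_neg]

/-- **bridge for `t`**. -/
theorem veluT_eq (hp : Odd p) (hQ : p • Q = 0)
    (hne : ∀ k ∈ Finset.Ico 1 ((p + 1) / 2), k • Q ≠ 0) :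
    VeluDef34.veluT V Q p = VeluDef51.veluT V Q p := by
  rw [VeluDef34.veluT, VeluDef51.veluT, sum_Ico_eq_sum_half hp]
  refine Finset.sum_congr rfl fun k hk => ?_
  have hk' : k ≤ p := by
    rw [Finset.mem_Ico] at hk
    omega
  rw [sub_nsmul_eq_neg hQ hk']
  exact (VeluDef51.gx_add_gx_neg V (k • Q) (hne k hk)).symm

/-- **bridge for `w`**. -/
theorem veluW_eq (hp : Odd p) (hQ : p • Q = 0)
    (hne : ∀ k ∈ Finset.Ico 1 ((p + 1) / 2), k • Q ≠ 0) :
    VeluDef34.veluW V Q p = VeluDef51.veluW V Q p := by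
  rw [VeluDef34.veluW, VeluDef51.veluW, sum_Ico_eq_sum_half hp]
  refine Finset.sum_congr rfl fun k hk => ?_
  have hk' : k ≤ p := by
    rw [Finset.mem_Ico] at hk
    omega
  rw [sub_nsmul_eq_neg hQ hk', xco_neg]
  have h1 := VeluDef51.gx_add_gx_neg V (k • Q) (hne k hk)
  have h2 := VeluDef51.ypsi_add_ypsi_neg V (k • Q) (hne k hk)
  have e3 : VeluDef34.uq V (k • Q) = VeluDef51.uq V (k • Q) := rfl
  have e4 : VeluDef34.tq V (k • Q) = VeluDef51.tq V (k • Q) := rfl
  rw [e3, e4, ← h1, ← h2]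
  ring

/-- the two quotient curves agree. -/
theorem veluCurve_eq (hp : Odd p) (hQ : p • Q = 0)
    (hne : ∀ k ∈ Finset.Ico 1 ((p + 1) / 2), k • Q ≠ 0) :
    VeluDef34.veluCurve V Q p = VeluDef51.veluCurve V Q p := by
  rw [VeluDef34.veluCurve, VeluDef51.veluCurve, veluT_eq V Q hp hQ hne, veluW_eq V Q hp hQ hne]

/-- nonvanishing of the multiples on the half system from the full system. -/
theorem ne_zero_half {P : ℕ → Prop} (h : ∀ k ∈ Finset.Ico 1 p, P k) :
    ∀ k ∈ Finset.Ico 1 ((p + 1) / 2), P k := by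
  intro k hk
  refine h k ?_
  rw [Finset.mem_Ico] at hk ⊢
  omega

/-! ### Part C: change of generator -/

theorem veluT51_smul (hp : 1 < p) (hQ : p • Q = 0) {j : ℕ} (hj : Nat.Coprime j p) :
    VeluDef51.veluT V (j • Q) p = VeluDef51.veluT V Q p := by
  rw [VeluDef51.veluT, VeluDef51.veluT]
  exact sum_Ico_smul_smul hp hQ hj (fun R => gx V R)

theorem veluW51_smul (hp : 1 < p) (hQ : p • Q = 0) {j : ℕ} (hj : Nat.Coprime j p) :
    VeluDef51.veluW V (j • Q) p = VeluDef51.veluW V Q p := by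
  rw [VeluDef51.veluW, VeluDef51.veluW]
  exact sum_Ico_smul_smul hp hQ hj (fun R => xco V R * gx V R + yco V R * psi2 V R)

theorem veluCurve51_smul (hp : 1 < p) (hQ : p • Q = 0) {j : ℕ} (hj : Nat.Coprime j p) :
    VeluDef51.veluCurve V (j • Q) p = VeluDef51.veluCurve V Q p := by
  rw [VeluDef51.veluCurve, VeluDef51.veluCurve, veluT51_smul V Q hp hQ hj,
    veluW51_smul V Q hp hQ hj]

theorem veluX_smul (hp : 1 < p) (hQ : p • Q = 0) {j : ℕ} (hj : Nat.Coprime j p)
    (R : V.toAffine.Point) : VeluDef34.veluX V (j • Q) p R = VeluDef34.veluX V Q p R := by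
  rw [VeluDef34.veluX, VeluDef34.veluX]
  congr 1
  exact sum_Ico_smul_smul hp hQ hj (fun T => xco V (R + T) - xco V T)

theorem veluY_smul (hp : 1 < p) (hQ : p • Q = 0) {j : ℕ} (hj : Nat.Coprime j p)
    (R : V.toAffine.Point) : VeluDef34.veluY V (j • Q) p R = VeluDef34.veluY V Q p R := by
  rw [VeluDef34.veluY, VeluDef34.veluY]
  congr 1
  exact sum_Ico_smul_smul hp hQ hj (fun T => yco V (R + T) - yco V T)

/-- multiples of `j • Q` by `0 < k < p` are nonzero when those of `Q` are (`j` prime to `p`). -/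
theorem smul_smul_ne_zero (hp : 1 < p) (hQ : p • Q = 0) {j : ℕ} (hj : Nat.Coprime j p)
    (hne : ∀ k ∈ Finset.Ico 1 p, k • Q ≠ 0) : ∀ k ∈ Finset.Ico 1 p, k • (j • Q) ≠ 0 := by
  intro k hk
  rw [← mul_smul, nsmul_eq_of_modEq hQ (Nat.mod_modEq (k * j) p).symm]
  refine hne _ ?_
  rw [Finset.mem_Ico] at hk ⊢
  refine ⟨?_, Nat.mod_lt _ (by omega)⟩
  rw [Nat.one_le_iff_ne_zero]
  intro h0
  have hdvd : p ∣ k * j := Nat.dvd_of_mod_eq_zero h0
  have hpk : p ∣ k := (Nat.Coprime.dvd_mul_right hj.symm).1 hdvd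
  have := Nat.le_of_dvd (by omega) hpk
  omega

theorem smul_smul_eq_zero (hQ : p • Q = 0) (j : ℕ) : p • (j • Q) = 0 := by
  rw [smul_comm, hQ, smul_zero]

theorem veluT_smul (hp : Odd p) (hp1 : 1 < p) (hQ : p • Q = 0)
    (hne : ∀ k ∈ Finset.Ico 1 p, k • Q ≠ 0) {j : ℕ} (hj : Nat.Coprime j p) :
    VeluDef34.veluT V (j • Q) p = VeluDef34.veluT V Q p := by
  rw [veluT_eq V (j • Q) hp (smul_smul_eq_zero V Q hQ j)
      (ne_zero_half (smul_smul_ne_zero V Q hp1 hQ hj hne)),
    veluT_eq V Q hp hQ (ne_zero_half hne), veluT51_smul V Q hp1 hQ hj]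

theorem veluW_smul (hp : Odd p) (hp1 : 1 < p) (hQ : p • Q = 0)
    (hne : ∀ k ∈ Finset.Ico 1 p, k • Q ≠ 0) {j : ℕ} (hj : Nat.Coprime j p) :
    VeluDef34.veluW V (j • Q) p = VeluDef34.veluW V Q p := by
  rw [veluW_eq V (j • Q) hp (smul_smul_eq_zero V Q hQ j)
      (ne_zero_half (smul_smul_ne_zero V Q hp1 hQ hj hne)),
    veluW_eq V Q hp hQ (ne_zero_half hne), veluW51_smul V Q hp1 hQ hj]

theorem veluCurve_smul (hp : Odd p) (hp1 : 1 < p) (hQ : p • Q = 0)
    (hne : ∀ k ∈ Finset.Ico 1 p, k • Q ≠ 0) {j : ℕ} (hj : Nat.Coprime j p) :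
    VeluDef34.veluCurve V (j • Q) p = VeluDef34.veluCurve V Q p := by
  rw [VeluDef34.veluCurve, VeluDef34.veluCurve, veluT_smul V Q hp hp1 hQ hne hj,
    veluW_smul V Q hp hp1 hQ hne hj]

end Bridge

/-! ### Part A: maps -/

section Maps

open WeierstrassCurve.Affine

variable {R S F K : Type*} [CommRing R] [CommRing S] [Field F] [Field K] [DecidableEq F]
  [DecidableEq K] (W' : WeierstrassCurve R) [Algebra R S] [Algebra R F] [Algebra S F]
  [IsScalarTower R S F] [Algebra R K] [Algebra S K] [IsScalarTower R S K] (f : F →ₐ[S] K)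

theorem map_algebraMap' (r : R) : f (algebraMap R F r) = algebraMap R K r := by
  rw [IsScalarTower.algebraMap_apply R S F, f.commutes, ← IsScalarTower.algebraMap_apply]

theorem baseChange_a₁ : (W'.baseChange K).a₁ = f (W'.baseChange F).a₁ :=
  (map_algebraMap' f W'.a₁).symm
theorem baseChange_a₂ : (W'.baseChange K).a₂ = f (W'.baseChange F).a₂ :=
  (map_algebraMap' f W'.a₂).symm
theorem baseChange_a₃ : (W'.baseChange K).a₃ = f (W'.baseChange F).a₃ :=
  (map_algebraMap' f W'.a₃).symm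
theorem baseChange_a₄ : (W'.baseChange K).a₄ = f (W'.baseChange F).a₄ :=
  (map_algebraMap' f W'.a₄).symm
theorem baseChange_a₆ : (W'.baseChange K).a₆ = f (W'.baseChange F).a₆ :=
  (map_algebraMap' f W'.a₆).symm

theorem baseChange_b₂ : (W'.baseChange K).b₂ = f (W'.baseChange F).b₂ := by
  simp only [WeierstrassCurve.b₂, baseChange_a₁ W' f, baseChange_a₂ W' f, map_add, map_mul,
    map_pow, map_ofNat]

theorem baseChange_b₄ : (W'.baseChange K).b₄ = f (W'.baseChange F).b₄ := by
  simp only [WeierstrassCurve.b₄, baseChange_a₁ W' f, baseChange_a₃ W' f, baseChange_a₄ W' f,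
    map_add, map_mul, map_ofNat]

variable (P : (W'⁄F).Point)

theorem xco_map : xco (W'.baseChange K) (Point.map f P) = f (xco (W'.baseChange F) P) := by
  cases P with
  | zero => exact (map_zero f).symm
  | some x y h => rfl

theorem yco_map : yco (W'.baseChange K) (Point.map f P) = f (yco (W'.baseChange F) P) := by
  cases P with
  | zero => exact (map_zero f).symm
  | some x y h => rfl

theorem psi2_map : psi2 (W'.baseChange K) (Point.map f P) = f (psi2 (W'.baseChange F) P) := by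
  cases P with
  | zero => exact (map_zero f).symm
  | some x y h =>
    rw [Point.map_some, psi2_some, psi2_some, baseChange_a₁ W' f, baseChange_a₃ W' f]
    simp only [map_add, map_mul, map_ofNat]

theorem gx_map : gx (W'.baseChange K) (Point.map f P) = f (gx (W'.baseChange F) P) := by
  simp only [gx, xco_map, yco_map, baseChange_a₁ W' f, baseChange_a₂ W' f, baseChange_a₄ W' f,
    map_add, map_sub, map_mul, map_pow, map_ofNat]

theorem tq_map :
    VeluDef34.tq (W'.baseChange K) (Point.map f P) = f (VeluDef34.tq (W'.baseChange F) P) := by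
  simp only [VeluDef34.tq, xco_map, baseChange_b₂ W' f, baseChange_b₄ W' f, map_add, map_mul,
    map_pow, map_ofNat]

theorem uq_map :
    VeluDef34.uq (W'.baseChange K) (Point.map f P) = f (VeluDef34.uq (W'.baseChange F) P) := by
  simp only [VeluDef34.uq, psi2_map, map_pow]

variable (Q : (W'⁄F).Point) (p : ℕ)

theorem veluT_map : VeluDef34.veluT (W'.baseChange K) (Point.map f Q) p =
    f (VeluDef34.veluT (W'.baseChange F) Q p) := by
  rw [VeluDef34.veluT, VeluDef34.veluT, map_sum]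
  refine Finset.sum_congr rfl fun k _ => ?_
  rw [← map_nsmul, tq_map]

theorem veluW_map : VeluDef34.veluW (W'.baseChange K) (Point.map f Q) p =
    f (VeluDef34.veluW (W'.baseChange F) Q p) := by
  rw [VeluDef34.veluW, VeluDef34.veluW, map_sum]
  refine Finset.sum_congr rfl fun k _ => ?_
  rw [← map_nsmul, tq_map, uq_map, xco_map, map_add, map_mul]

theorem veluT51_map : VeluDef51.veluT (W'.baseChange K) (Point.map f Q) p =
    f (VeluDef51.veluT (W'.baseChange F) Q p) := by
  rw [VeluDef51.veluT, VeluDef51.veluT, map_sum]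
  refine Finset.sum_congr rfl fun k _ => ?_
  rw [← map_nsmul, gx_map]

theorem veluW51_map : VeluDef51.veluW (W'.baseChange K) (Point.map f Q) p =
    f (VeluDef51.veluW (W'.baseChange F) Q p) := by
  rw [VeluDef51.veluW, VeluDef51.veluW, map_sum]
  refine Finset.sum_congr rfl fun k _ => ?_
  rw [← map_nsmul, gx_map, xco_map, yco_map, psi2_map, map_add, map_mul, map_mul]

theorem veluX_map : VeluDef34.veluX (W'.baseChange K) (Point.map f Q) p (Point.map f P) =
    f (VeluDef34.veluX (W'.baseChange F) Q p P) := by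
  rw [VeluDef34.veluX, VeluDef34.veluX, map_add, map_sum, xco_map]
  congr 1
  refine Finset.sum_congr rfl fun k _ => ?_
  rw [← map_nsmul, ← map_add, xco_map, xco_map, map_sub]

theorem veluY_map : VeluDef34.veluY (W'.baseChange K) (Point.map f Q) p (Point.map f P) =
    f (VeluDef34.veluY (W'.baseChange F) Q p P) := by
  rw [VeluDef34.veluY, VeluDef34.veluY, map_add, map_sum, yco_map]
  congr 1
  refine Finset.sum_congr rfl fun k _ => ?_
  rw [← map_nsmul, ← map_add, yco_map, yco_map, map_sub]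

end Maps

/-! ### The Galois action -/

section Galois

open WeierstrassCurve.Affine WeierstrassCurve.Affine.Point

variable {R S K : Type*} [CommRing R] [CommRing S] [Field K] [DecidableEq K]
  (W' : WeierstrassCurve R) [Algebra R S] [Algebra R K] [Algebra S K] [IsScalarTower R S K]
  (σ : K ≃ₐ[S] K) (P Q : (W'⁄K).Point) (p : ℕ)

theorem xco_smul : xco (W'.baseChange K) (σ • P) = σ (xco (W'.baseChange K) P) :=
  xco_map W' σ.toAlgHom P

theorem yco_smul : yco (W'.baseChange K) (σ • P) = σ (yco (W'.baseChange K) P) :=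
  yco_map W' σ.toAlgHom P

theorem psi2_smul : psi2 (W'.baseChange K) (σ • P) = σ (psi2 (W'.baseChange K) P) :=
  psi2_map W' σ.toAlgHom P

theorem veluT_galois : VeluDef34.veluT (W'.baseChange K) (σ • Q) p =
    σ (VeluDef34.veluT (W'.baseChange K) Q p) :=
  veluT_map W' σ.toAlgHom Q p

theorem veluW_galois : VeluDef34.veluW (W'.baseChange K) (σ • Q) p =
    σ (VeluDef34.veluW (W'.baseChange K) Q p) :=
  veluW_map W' σ.toAlgHom Q p

theorem veluX_galois : VeluDef34.veluX (W'.baseChange K) (σ • Q) p (σ • P) =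
    σ (VeluDef34.veluX (W'.baseChange K) Q p P) :=
  veluX_map W' σ.toAlgHom P Q p

theorem veluY_galois : VeluDef34.veluY (W'.baseChange K) (σ • Q) p (σ • P) =
    σ (VeluDef34.veluY (W'.baseChange K) Q p P) :=
  veluY_map W' σ.toAlgHom P Q p

/-- **Galois invariance of `t`** for a stable cyclic subgroup: `σ • Q = j • Q`. -/
theorem veluT_fixed {p : ℕ} (hp : Odd p) (hp1 : 1 < p) (hQ : p • Q = 0)
    (hne : ∀ k ∈ Finset.Ico 1 p, k • Q ≠ 0) {j : ℕ} (hj : Nat.Coprime j p)
    (hσ : σ • Q = j • Q) :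
    σ (VeluDef34.veluT (W'.baseChange K) Q p) = VeluDef34.veluT (W'.baseChange K) Q p := by
  rw [← veluT_galois, hσ]
  exact veluT_smul (W'.baseChange K) Q hp hp1 hQ hne hj

/-- **Galois invariance of `w`**. -/
theorem veluW_fixed {p : ℕ} (hp : Odd p) (hp1 : 1 < p) (hQ : p • Q = 0)
    (hne : ∀ k ∈ Finset.Ico 1 p, k • Q ≠ 0) {j : ℕ} (hj : Nat.Coprime j p)
    (hσ : σ • Q = j • Q) :
    σ (VeluDef34.veluW (W'.baseChange K) Q p) = VeluDef34.veluW (W'.baseChange K) Q p := by
  rw [← veluW_galois, hσ]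
  exact veluW_smul (W'.baseChange K) Q hp hp1 hQ hne hj

/-- **Galois equivariance of the isogeny** for a stable cyclic subgroup. -/
theorem veluX_equivariant {p : ℕ} (hp1 : 1 < p) (hQ : p • Q = 0) {j : ℕ} (hj : Nat.Coprime j p)
    (hσ : σ • Q = j • Q) :
    VeluDef34.veluX (W'.baseChange K) Q p (σ • P) =
      σ (VeluDef34.veluX (W'.baseChange K) Q p P) := by
  rw [← veluX_galois, hσ]
  exact (veluX_smul (W'.baseChange K) Q hp1 hQ hj (σ • P)).symm

theorem veluY_equivariant {p : ℕ} (hp1 : 1 < p) (hQ : p • Q = 0) {j : ℕ} (hj : Nat.Coprime j p)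
    (hσ : σ • Q = j • Q) :
    VeluDef34.veluY (W'.baseChange K) Q p (σ • P) =
      σ (VeluDef34.veluY (W'.baseChange K) Q p P) := by
  rw [← veluY_galois, hσ]
  exact (veluY_smul (W'.baseChange K) Q hp1 hQ hj (σ • P)).symm

end Galois

end Fermat.Agent.S12P.VeluLem57
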