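/-
Programme S12, brick 750 VELU-DEF, deliverable (D1) (helper57): for the canonical vocabulary
`S12P/VeluDef51/Defs.lean` (full-kernel sums), `p = 2m + 1`, `p • Q = 0`, `k • Q ≠ 0` (`0 < k < p`):

* `veluT_halfSum : veluT V Q p = ∑ k ∈ Ico 1 (m + 1), tq V (k • Q)`,
* `veluW_halfSum : veluW V Q p = ∑ k ∈ Ico 1 (m + 1), (uq V (k • Q) + xco V (k • Q) * tq V (k • Q))`,
* `two_mul_veluT : 2 * veluT V Q p = ∑ k ∈ Ico 1 p, tq V (k • Q)` (any `p`),
* `two_mul_veluW : 2 * veluW V Q p = ∑ k ∈ Ico 1 p, (uq V (k • Q) + xco V (k • Q) * tq V (k • Q))`,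
* `veluCurve_c₄_eq_c4q : (veluCurve V Q p).c₄ = ModInv.c4q V Q p` when `12 ≠ 0` in `F`, `0 < p`
  (`veluCurve_c₄_eq_c4q'` for `[CharZero F]`).
Mathlib + `VeluDef51/Defs` + `VeluLem57/Equivariant` (reindexing lemmas) only.
-/
import Mathlib
import Fermat.Agent.S12P.VeluLem57.Equivariant

set_option autoImplicit false
set_option linter.unusedSectionVars false

open WeierstrassCurve

noncomputable section

namespace Fermat.Agent.S12P.VeluLem57

open Fermat.Agent.MAZ.ModInv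
open Fermat.Agent.S12P.VeluDef51

variable {F : Type*} [Field F] [DecidableEq F] (V : WeierstrassCurve F)
  (Q : V.toAffine.Point) {p : ℕ}

/-- `t` is even (canonical vocabulary). -/
theorem tq51_neg (R : V.toAffine.Point) : tq V (-R) = tq V R := by
  rw [tq, tq, xco_neg]

/-- `u` is even. -/
theorem uq51_neg (R : V.toAffine.Point) : uq V (-R) = uq V R := by
  cases R with
  | zero => rfl
  | some x y h =>
    rw [WeierstrassCurve.Affine.Point.neg_some]
    simp only [uq, psi2_some, WeierstrassCurve.Affine.negY]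
    ring

/-- **(D1), `t`**: the half-sum form of Vélu's `t`. -/
theorem veluT_halfSum {m : ℕ} (hp : p = 2 * m + 1) (hQ : p • Q = 0)
    (hne : ∀ k ∈ Finset.Ico 1 p, k • Q ≠ 0) :
    veluT V Q p = ∑ k ∈ Finset.Ico 1 (m + 1), tq V (k • Q) := by
  have hodd : Odd p := ⟨m, hp⟩
  have e1 : (p + 1) / 2 = m + 1 := by omega
  have h := veluT_eq V Q hodd hQ (ne_zero_half hne)
  rw [VeluDef34.veluT, e1] at h
  exact h.symm

/-- **(D1), `w`**: the half-sum form of Vélu's `w`. -/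
theorem veluW_halfSum {m : ℕ} (hp : p = 2 * m + 1) (hQ : p • Q = 0)
    (hne : ∀ k ∈ Finset.Ico 1 p, k • Q ≠ 0) :
    veluW V Q p =
      ∑ k ∈ Finset.Ico 1 (m + 1), (uq V (k • Q) + xco V (k • Q) * tq V (k • Q)) := by
  have hodd : Odd p := ⟨m, hp⟩
  have e1 : (p + 1) / 2 = m + 1 := by omega
  have h := veluW_eq V Q hodd hQ (ne_zero_half hne)
  rw [VeluDef34.veluW, e1] at h
  exact h.symm

/-- reflection `k ↔ p - k` of a full sum over the multiples of a point killed by `p`. -/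
theorem sum_Ico_neg_smul {G M : Type*} [AddCommGroup G] [AddCommMonoid M] {Q : G} {p : ℕ}
    (hQ : p • Q = 0) (g : G → M) :
    ∑ k ∈ Finset.Ico 1 p, g (-(k • Q)) = ∑ k ∈ Finset.Ico 1 p, g (k • Q) := by
  rcases Nat.eq_zero_or_pos p with rfl | hp0
  · simp
  have h1 : ∑ k ∈ Finset.Ico 1 p, g (-(k • Q)) = ∑ k ∈ Finset.Ico 1 p, g ((p - k) • Q) := by
    refine Finset.sum_congr rfl fun k hk => ?_
    rw [Finset.mem_Ico] at hk
    rw [sub_nsmul_eq_neg hQ hk.2.le]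
  rw [h1, Finset.sum_Ico_reflect (fun k => g (k • Q)) 1 (Nat.le_succ p)]
  congr 1
  congr 1
  all_goals omega

/-- **`2t = ∑_{0<k<p} t(kQ)`** (no parity assumption). -/
theorem two_mul_veluT (hQ : p • Q = 0) (hne : ∀ k ∈ Finset.Ico 1 p, k • Q ≠ 0) :
    2 * veluT V Q p = ∑ k ∈ Finset.Ico 1 p, tq V (k • Q) := by
  have h1 := sum_Ico_neg_smul hQ (fun R => gx V R)
  rw [two_mul, veluT]
  nth_rewrite 2 [← h1]
  rw [← Finset.sum_add_distrib]
  exact Finset.sum_congr rfl fun k hk => gx_add_gx_neg V (k • Q) (hne k hk)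

/-- **`2w = ∑_{0<k<p} (u(kQ) + x(kQ) t(kQ))`** (no parity assumption). -/
theorem two_mul_veluW (hQ : p • Q = 0) (hne : ∀ k ∈ Finset.Ico 1 p, k • Q ≠ 0) :
    2 * veluW V Q p =
      ∑ k ∈ Finset.Ico 1 p, (uq V (k • Q) + xco V (k • Q) * tq V (k • Q)) := by
  have h1 := sum_Ico_neg_smul hQ
    (fun R => xco V R * gx V R + yco V R * psi2 V R)
  rw [two_mul, veluW]
  nth_rewrite 2 [← h1]
  rw [← Finset.sum_add_distrib]
  refine Finset.sum_congr rfl fun k hk => ?_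
  have h2 := gx_add_gx_neg V (k • Q) (hne k hk)
  have h3 := ypsi_add_ypsi_neg V (k • Q) (hne k hk)
  simp only [xco_neg]
  rw [← h2, ← h3]
  ring

/-- **(D1), `c₄`**: the `c₄` of Vélu's quotient curve is the normalised `c4q` of `MAZ/EF86/ModInv`. -/
theorem veluCurve_c₄_eq_c4q (h12 : (12 : F) ≠ 0) (hp : 0 < p) (hQ : p • Q = 0)
    (hne : ∀ k ∈ Finset.Ico 1 p, k • Q ≠ 0) :
    (veluCurve V Q p).c₄ = c4q V Q p := by
  have h2 : (2 : F) ≠ 0 := by
    intro h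
    apply h12
    have : (12 : F) = 2 * 6 := by norm_num
    rw [this, h, zero_mul]
  have h6 : (6 : F) ≠ 0 := by
    intro h
    apply h12
    have : (12 : F) = 2 * 6 := by norm_num
    rw [this, h, mul_zero]
  have h144 : (144 : F) ≠ 0 := by
    have : (144 : F) = 12 * 12 := by norm_num
    rw [this]
    exact mul_ne_zero h12 h12
  have hT := two_mul_veluT V Q hQ hne
  have hsum : ∑ k ∈ Finset.Ico 1 p, tq V (k • Q) =
      6 * ∑ k ∈ Finset.Ico 1 p, xco V (k • Q) ^ 2 + V.b₂ * ∑ k ∈ Finset.Ico 1 p, xco V (k • Q)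
        + ((p : F) - 1) * V.b₄ := by
    simp only [tq, Finset.sum_add_distrib, ← Finset.mul_sum, Finset.sum_const, Nat.card_Ico,
      nsmul_eq_mul]
    rw [Nat.cast_sub hp, Nat.cast_one]
  have hsq : ∑ k ∈ Finset.Ico 1 p, (xco V (k • Q) + V.b₂ / 12) ^ 2 =
      ∑ k ∈ Finset.Ico 1 p, xco V (k • Q) ^ 2 + V.b₂ / 6 * ∑ k ∈ Finset.Ico 1 p, xco V (k • Q)
        + ((p : F) - 1) * (V.b₂ ^ 2 / 144) := by
    have : ∀ k ∈ Finset.Ico 1 p, (xco V (k • Q) + V.b₂ / 12) ^ 2 =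
        xco V (k • Q) ^ 2 + V.b₂ / 6 * xco V (k • Q) + V.b₂ ^ 2 / 144 := by
      intro k _
      field_simp
      ring
    rw [Finset.sum_congr rfl this]
    simp only [Finset.sum_add_distrib, ← Finset.mul_sum, Finset.sum_const, Nat.card_Ico,
      nsmul_eq_mul]
    rw [Nat.cast_sub hp, Nat.cast_one]
  rw [veluCurve_c₄, c4q, hsq]
  rw [hsum] at hT
  have hc4 : V.c₄ = V.b₂ ^ 2 - 24 * V.b₄ := rfl
  have hT' : veluT V Q p = (6 * ∑ k ∈ Finset.Ico 1 p, xco V (k • Q) ^ 2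
      + V.b₂ * ∑ k ∈ Finset.Ico 1 p, xco V (k • Q) + ((p : F) - 1) * V.b₄) / 2 := by
    rw [← hT]
    field_simp
  rw [hT', hc4]
  field_simp
  ring

/-- the same over a field of characteristic zero. -/
theorem veluCurve_c₄_eq_c4q' [CharZero F] (hp : 0 < p) (hQ : p • Q = 0)
    (hne : ∀ k ∈ Finset.Ico 1 p, k • Q ≠ 0) :
    (veluCurve V Q p).c₄ = c4q V Q p :=
  veluCurve_c₄_eq_c4q V Q (by norm_num) hp hQ hne

/-- the odd-prime-shaped form consumed downstream: `p = 2m + 1`. -/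
theorem veluCurve_c₄_eq_c4q_odd [CharZero F] {m : ℕ} (hp : p = 2 * m + 1) (hQ : p • Q = 0)
    (hne : ∀ k ∈ Finset.Ico 1 p, k • Q ≠ 0) :
    (veluCurve V Q p).c₄ = c4q V Q p :=
  veluCurve_c₄_eq_c4q' V Q (by omega) hQ hne

end Fermat.Agent.S12P.VeluLem57
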